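import Fermat.Agent.S36.Mod3.Spec
import Fermat.Agent.S36.H816.SymDich

/-!
# S36 / MOD3 leaf TABLE (helper816): `leafTable : Mod3.LeafTable`

The six `comap` fields of `Eng.TripleCtx` for the concrete objects of `Mod3.Objs`:

* rows FF (`V₁ = V∞`) : Gauss integrality of `f(t) ↦ f(t)`, `f(t) ↦ f(t^q)`        (`SymBase`);
* rows VV (`V₃ = V∞ ∘ W`) : Fricke compatibility `W ∘ α = β ∘ W'`, `W ∘ β = α ∘ W'`  (`SymBase`);
* row MID, `α` : `Objs.mid`;
* row MID, `β` : `Objs.mid` + `Objs.mid_ne` ⟹ `j_{q²} ≡ j` (Kronecker dichotomy + uniqueness of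
  `V∞` over `β(V∞)`, helper83) ⟹ `V₂.comap β` is Gauss on `E(j j_q)`, hence `V∞` or `V₀`
  (two-extension theorem of level `M q`), and `V∞` is excluded by the Kronecker unit.
-/

set_option autoImplicit false
set_option linter.unusedSectionVars false
set_option linter.style.haveILetI false
set_option synthInstance.maxHeartbeats 400000
set_option maxHeartbeats 1600000

noncomputable section

namespace Fermat.Agent.S36.Mod3.H816

open ModularCurve
open Fermat.Agent Fermat.Agent.S36.H816

/-- The standing hypotheses of MOD3 give the `Setting` of A2/Mod. -/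
theorem setting_of_std {P : ValuationSubring A2.Qb} {E : IntermediateField ℚ A2.Qb} {M q : ℕ}
    [NeZero M] [NeZero q] [NeZero (M * q)] {w : A2.RE P E} (h : Mod3.Std P E M q w) :
    A2.Mod.Setting P E M q w :=
  ⟨h.q_prime, h.q_not_dvd, NeZero.ne M, h.lies_over, h.unram.1.dvr, h.unif⟩

/-- **MOD3 leaf TABLE.** -/
theorem leafTable : Mod3.LeafTable := by
  intro P E M q _ _ _ w hStd V₁' V₂' V₁ V₂ V₃ W' W hO
  have hS : A2.Mod.Setting P E M q w := setting_of_std hStd
  haveI := hS.dvr
  have hcα : ∀ g : A2.Mod.FE E (M * q),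
      heckeAlphaBar E (M * q) q g ∈ V₂ ↔ g ∈ V₁' := fun g => by
    have h := hO.mid
    have h2 : g ∈ V₂.comap (A2.Mod.αE E (M * q) q :
        A2.Mod.FE E (M * q) →+* A2.Mod.FE E (M * q * q)) ↔ g ∈ V₁' := by rw [h]
    rw [ValuationSubring.mem_comap] at h2
    exact h2
  have hmid : IsMid V₁' V₂ := isMid_of_ne hcα hS hO.vinf' hO.fricke' hO.vinf hO.mid_ne
  refine ⟨?_, hO.mid, ?_, ?_, ?_, ?_⟩
  · ext g
    rw [ValuationSubring.mem_comap]
    exact alpha_mem_iff hO.vinf' hO.vinf g
  · rw [hO.vzero, hO.vzero']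
    ext g
    rw [ValuationSubring.mem_comap]
    exact alpha_mem_comap_iff hO.vinf' hO.vinf hO.fricke' hO.fricke g
  · ext g
    rw [ValuationSubring.mem_comap]
    exact beta_mem_iff hO.vinf' hO.vinf g
  · rw [hO.vzero']
    exact hmid.comap_beta_eq hS hO.vinf' hO.fricke'
  · rw [hO.vzero, hO.vzero']
    ext g
    rw [ValuationSubring.mem_comap]
    exact beta_mem_comap_iff hO.vinf' hO.vinf hO.fricke' hO.fricke g

end Fermat.Agent.S36.Mod3.H816

end
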